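import Fermat.Agent.LT.T6.H441.PolCBasic

/-!
# Row LT, tower T6, leaf T6.23.15 `PolOfCC` (helper441): the polar formula on `GL₂(ℂ)`

OFF-MAIN.  `polOfCC441 : H189.PolOfCC`, VERBATIM against `LT/T6/H189/ArchIntCut.lean`
(helper189@45580d1ec, sha256 db591abe06d241ac; `ArchIntSpec.lean` 4ac6c0909efd5385).

Route (header of `ArchIntCut.lean`): for `F ≥ 0` measurable, `F̃ g = ∫∫ F (k₁ g k₂) dκ dκ`;
`∫ F dμ = ∫ F̃ dμ` (Tonelli, bi-invariance of `μ`); `F̃ g = Φ (log |det g| / 2, arcosh ρ(g))`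
(Cartan, invariance of `κ`), `Φ (r, t) = ∫∫ F (e^r k₁ a_t k₂)`; Iwasawa formula;
`(u₁, u₂) ↦ ((u₁ + u₂)/2, u₁ - u₂)` preserves the Lebesgue measure; `AbelAreaCC`.
-/

set_option autoImplicit false

open MeasureTheory
open scoped Matrix ENNReal

noncomputable section

namespace Fermat.Agent.LT.T6.H441

open Fermat.Agent.LT.T6.H189

local notation "GC" => GL (Fin 2) ℂ

attribute [local instance] secondCountable_GC441 sfinite_radMC441

/-- The Borel σ-algebra of `GL₂(ℂ)` (local instance of this file). -/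
local instance borelGC441 : MeasurableSpace GC := borel GC

local instance borelSpaceGC441 : BorelSpace GC := ⟨rfl⟩

/-! ## The two averages -/

/-- `F̃ g = ∫∫ F (k₁ g k₂) dκ(k₂) dκ(k₁)`. -/
def avg441 (κ : Measure GC) (F : GC → ℝ≥0∞) (g : GC) : ℝ≥0∞ :=
  ∫⁻ k₁, ∫⁻ k₂, F (k₁ * g * k₂) ∂κ ∂κ

/-- `Φ (r, t) = ∫∫ F (e^r k₁ a_t k₂) dκ(k₂) dκ(k₁)`. -/
def sph441 (κ : Measure GC) (F : GC → ℝ≥0∞) (r t : ℝ) : ℝ≥0∞ :=
  ∫⁻ k₁, ∫⁻ k₂, F (sclC r * k₁ * atC t * k₂) ∂κ ∂κ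

section Meas

variable {κ : Measure GC} [SFinite κ] {F : GC → ℝ≥0∞}

theorem measurable_avg441 (hF : Measurable F) : Measurable (avg441 κ F) := by
  have h1 : Measurable fun p : (GC × GC) × GC => F (p.1.2 * p.1.1 * p.2) :=
    hF.comp (((continuous_snd.comp continuous_fst).mul
      (continuous_fst.comp continuous_fst)).mul continuous_snd).measurable
  have h2 : Measurable fun p : GC × GC => ∫⁻ k₂, F (p.2 * p.1 * k₂) ∂κ :=
    h1.lintegral_prod_right'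
  exact h2.lintegral_prod_right'

theorem measurable_sph441 (hF : Measurable F) :
    Measurable fun p : ℝ × ℝ => sph441 κ F p.1 p.2 := by
  have h1 : Measurable fun p : ((ℝ × ℝ) × GC) × GC =>
      F (sclC p.1.1.1 * p.1.2 * atC p.1.1.2 * p.2) :=
    hF.comp ((((continuous_sclC441.comp (continuous_fst.comp (continuous_fst.comp
      continuous_fst))).mul (continuous_snd.comp continuous_fst)).mul
      (continuous_atC441.comp (continuous_snd.comp (continuous_fst.comp continuous_fst)))).mul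
      continuous_snd).measurable
  have h2 : Measurable fun p : (ℝ × ℝ) × GC =>
      ∫⁻ k₂, F (sclC p.1.1 * p.2 * atC p.1.2 * k₂) ∂κ :=
    h1.lintegral_prod_right'
  exact h2.lintegral_prod_right'

end Meas

/-! ## Invariance of `κ` -/

theorem lintegral_U2_left441 {κ : Measure GC} (hκ : IsU2Haar κ) {k : GC} (hk : k ∈ U2)
    (H : GC → ℝ≥0∞) : ∫⁻ x, H (k * x) ∂κ = ∫⁻ x, H x ∂κ := by
  have h := lintegral_map_equiv (μ := κ) H (MeasurableEquiv.mulLeft k)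
  have h' : Measure.map (⇑(MeasurableEquiv.mulLeft k)) κ = κ := hκ.left k hk
  rw [h'] at h
  exact h.symm

theorem lintegral_U2_right441 {κ : Measure GC} (hκ : IsU2Haar κ) {k : GC} (hk : k ∈ U2)
    (H : GC → ℝ≥0∞) : ∫⁻ x, H (x * k) ∂κ = ∫⁻ x, H x ∂κ := by
  have h := lintegral_map_equiv (μ := κ) H (MeasurableEquiv.mulRight k)
  have h' : Measure.map (⇑(MeasurableEquiv.mulRight k)) κ = κ := hκ.right k hk
  rw [h'] at h
  exact h.symm

theorem ae_mem_U2_441 {κ : Measure GC} (hκ : IsU2Haar κ) : ∀ᵐ k ∂κ, k ∈ U2 := by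
  rw [ae_iff]
  exact hκ.supp

/-- `F̃` is right invariant under `U(2)`. -/
theorem avg_mul_right441 {κ : Measure GC} (hκ : IsU2Haar κ) (F : GC → ℝ≥0∞) (g : GC) {k : GC}
    (hk : k ∈ U2) : avg441 κ F (g * k) = avg441 κ F g := by
  unfold avg441
  refine lintegral_congr fun k₁ => ?_
  have h := lintegral_U2_left441 hκ hk (fun x => F (k₁ * g * x))
  rw [← h]
  refine lintegral_congr fun k₂ => ?_
  simp only [mul_assoc]

/-- `F̃ g = Φ (log |det g| / 2, arcosh ρ(g))`. -/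
theorem avg_eq_sph441 (hC : CartanCC) {κ : Measure GC} (hκ : IsU2Haar κ) (F : GC → ℝ≥0∞)
    (g : GC) :
    avg441 κ F g = sph441 κ F (Real.log ‖(g : Matrix (Fin 2) (Fin 2) ℂ).det‖ / 2)
      (Real.arcosh (rhoQ g)) := by
  obtain ⟨-, k₁', hk₁', k₂', hk₂', hg⟩ := hC g
  set r := Real.log ‖(g : Matrix (Fin 2) (Fin 2) ℂ).det‖ / 2 with hr
  set t := Real.arcosh (rhoQ g) with ht
  have key : ∀ k₁ k₂ : GC, k₁ * g * k₂ = sclC r * (k₁ * k₁') * atC t * (k₂' * k₂) := by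
    intro k₁ k₂
    conv_lhs => rw [hg]
    rw [← mul_assoc k₁, ← mul_assoc k₁, ← mul_assoc k₁, sclC_comm441 r k₁]
    simp only [mul_assoc]
  unfold avg441 sph441
  have h1 : ∀ k₁ : GC, ∫⁻ k₂, F (k₁ * g * k₂) ∂κ
      = ∫⁻ k₂, F (sclC r * (k₁ * k₁') * atC t * k₂) ∂κ := by
    intro k₁
    rw [← lintegral_U2_left441 hκ hk₂' (fun x => F (sclC r * (k₁ * k₁') * atC t * x))]
    exact lintegral_congr fun k₂ => by rw [key]
  rw [lintegral_congr h1]
  exact lintegral_U2_right441 hκ hk₁' (fun x => ∫⁻ k₂, F (sclC r * x * atC t * k₂) ∂κ)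

/-! ## Step 1: `∫ F dμ = ∫ F̃ dμ` -/

theorem lintegral_avg441 (hR : RightInvCC) {κ : Measure GC} (hκ : IsU2Haar κ) {μ : Measure GC}
    (hμ : μ.IsHaarMeasure) [SFinite μ] {F : GC → ℝ≥0∞} (hF : Measurable F) :
    ∫⁻ g, avg441 κ F g ∂μ = ∫⁻ g, F g ∂μ := by
  have : IsProbabilityMeasure κ := ⟨hκ.prob⟩
  have hinv : ∀ k₁ k₂ : GC, ∫⁻ g, F (k₁ * g * k₂) ∂μ = ∫⁻ g, F g ∂μ := by
    intro k₁ k₂
    have h1 := lintegral_map_equiv (μ := μ) (fun x => F (k₁ * x)) (MeasurableEquiv.mulRight k₂)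
    have h1' : Measure.map (⇑(MeasurableEquiv.mulRight k₂)) μ = μ := (hR μ hμ).1 k₂
    rw [h1'] at h1
    have h2 : ∫⁻ g, F (k₁ * g * k₂) ∂μ = ∫⁻ g, F (k₁ * g) ∂μ := by
      rw [h1]
      refine lintegral_congr fun x => ?_
      show F (k₁ * x * k₂) = F (k₁ * (x * k₂))
      rw [mul_assoc]
    rw [h2]
    exact lintegral_mul_left_eq_self F k₁
  have hm1 : Measurable fun p : (GC × GC) × GC => F (p.1.2 * p.1.1 * p.2) :=
    hF.comp (((continuous_snd.comp continuous_fst).mul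
      (continuous_fst.comp continuous_fst)).mul continuous_snd).measurable
  have hm2 : Measurable fun p : GC × GC => ∫⁻ k₂, F (p.2 * p.1 * k₂) ∂κ :=
    hm1.lintegral_prod_right'
  unfold avg441
  -- swap `g` and `k₁`
  rw [lintegral_lintegral_swap (f := fun g k₁ => ∫⁻ k₂, F (k₁ * g * k₂) ∂κ) hm2.aemeasurable]
  have h3 : ∀ k₁ : GC, ∫⁻ g, ∫⁻ k₂, F (k₁ * g * k₂) ∂κ ∂μ = ∫⁻ g, F g ∂μ := by
    intro k₁
    have hm3 : Measurable fun p : GC × GC => F (k₁ * p.1 * p.2) :=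
      hF.comp (((continuous_const.mul continuous_fst).mul continuous_snd)).measurable
    rw [lintegral_lintegral_swap (f := fun g k₂ => F (k₁ * g * k₂)) hm3.aemeasurable]
    rw [lintegral_congr fun k₂ => hinv k₁ k₂, lintegral_const, measure_univ, mul_one]
  rw [lintegral_congr h3, lintegral_const, measure_univ, mul_one]

/-! ## Step 4: the linear change of variables -/

theorem lintegral_rs441 {Ψ : ℝ × ℝ → ℝ≥0∞} (hΨ : Measurable Ψ) :
    ∫⁻ u₁ : ℝ, ∫⁻ u₂ : ℝ, Ψ ((u₁ + u₂) / 2, u₁ - u₂) = ∫⁻ r : ℝ, ∫⁻ s : ℝ, Ψ (r, s) := by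
  have hm1 : Measurable fun p : ℝ × ℝ => Ψ ((p.1 + p.2) / 2, p.1 - p.2) :=
    hΨ.comp (by fun_prop)
  rw [lintegral_lintegral_swap (f := fun u₁ u₂ : ℝ => Ψ ((u₁ + u₂) / 2, u₁ - u₂))
    hm1.aemeasurable]
  have h1 : ∀ u₂ : ℝ, ∫⁻ u₁ : ℝ, Ψ ((u₁ + u₂) / 2, u₁ - u₂) = ∫⁻ s : ℝ, Ψ (s / 2 + u₂, s) := by
    intro u₂
    rw [← lintegral_add_right_eq_self (fun s : ℝ => Ψ (s / 2 + u₂, s)) (-u₂)]
    refine lintegral_congr fun u₁ => ?_
    congr 2
    ring
  rw [lintegral_congr h1]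
  have hm2 : Measurable fun p : ℝ × ℝ => Ψ (p.2 / 2 + p.1, p.2) := hΨ.comp (by fun_prop)
  rw [lintegral_lintegral_swap (f := fun u₂ s : ℝ => Ψ (s / 2 + u₂, s)) hm2.aemeasurable]
  have h2 : ∀ s : ℝ, ∫⁻ u₂ : ℝ, Ψ (s / 2 + u₂, s) = ∫⁻ r : ℝ, Ψ (r, s) := by
    intro s
    rw [← lintegral_add_right_eq_self (fun r : ℝ => Ψ (r, s)) (s / 2)]
    refine lintegral_congr fun u₂ => ?_
    congr 2
    ring
  rw [lintegral_congr h2]
  have hm3 : Measurable fun p : ℝ × ℝ => Ψ (p.2, p.1) := hΨ.comp (by fun_prop)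
  exact lintegral_lintegral_swap (f := fun s r : ℝ => Ψ (r, s)) hm3.aemeasurable

/-! ## Step 3: the Iwasawa coordinates -/

theorem lintegral_iwa441 (hC : CartanCC) {κ : Measure GC} (hκ : IsU2Haar κ) {F : GC → ℝ≥0∞}
    (hF : Measurable F) :
    ∫⁻ p, avg441 κ F (iwaC p) ∂(iwaMC κ)
      = ∫⁻ u₁ : ℝ, ∫⁻ u₂ : ℝ, ∫⁻ w : ℂ,
          sph441 κ F ((u₁ + u₂) / 2)
            (Real.arcosh (Real.cosh (u₁ - u₂) + Real.exp (u₁ - u₂) * ‖w‖ ^ 2 / 2)) := by
  have : IsProbabilityMeasure κ := ⟨hκ.prob⟩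
  have hm : Measurable fun p : ℝ × ℝ × ℂ × GC => avg441 κ F (iwaC p) :=
    (measurable_avg441 hF).comp continuous_iwaC441.measurable
  show ∫⁻ p, avg441 κ F (iwaC p)
    ∂((volume : Measure ℝ).prod ((volume : Measure ℝ).prod ((volume : Measure ℂ).prod κ))) = _
  rw [lintegral_prod _ hm.aemeasurable]
  refine lintegral_congr fun u₁ => ?_
  have hm1 : Measurable fun q : ℝ × ℂ × GC => avg441 κ F (iwaC (u₁, q)) :=
    hm.comp measurable_prodMk_left
  rw [lintegral_prod _ hm1.aemeasurable]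
  refine lintegral_congr fun u₂ => ?_
  have hm2 : Measurable fun q : ℂ × GC => avg441 κ F (iwaC (u₁, u₂, q)) :=
    hm1.comp measurable_prodMk_left
  rw [lintegral_prod _ hm2.aemeasurable]
  refine lintegral_congr fun w => ?_
  have h1 : ∀ᵐ k ∂κ, avg441 κ F (iwaC (u₁, u₂, w, k)) = avg441 κ F (dgC u₁ u₂ * unC w) := by
    filter_upwards [ae_mem_U2_441 hκ] with k hk
    exact avg_mul_right441 hκ F _ hk
  rw [lintegral_congr_ae h1, lintegral_const, measure_univ, mul_one, avg_eq_sph441 hC hκ,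
    log_det_dgC_unC441, rhoQ_dgC_unC441]

/-! ## Step 5: the Abel area formula -/

theorem measurable_arcosh441 : Measurable Real.arcosh := by
  unfold Real.arcosh
  fun_prop

theorem lintegral_abel441 (hA : AbelAreaCC) {h : ℝ → ℝ≥0∞} (hh : Measurable h) :
    ∫⁻ s : ℝ, ∫⁻ w : ℂ, h (Real.arcosh (Real.cosh s + Real.exp s * ‖w‖ ^ 2 / 2))
      = ENNReal.ofReal (4 * Real.pi) * ∫⁻ t, h t ∂radMC := by
  have hf : Measurable fun p : ℝ × ℂ => Real.cosh p.1 + Real.exp p.1 * ‖p.2‖ ^ 2 / 2 := by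
    fun_prop
  have hha : Measurable fun x => h (Real.arcosh x) := hh.comp measurable_arcosh441
  have hpos : ∀ᵐ t ∂radMC, t ∈ Set.Ioi (0 : ℝ) :=
    (withDensity_absolutelyContinuous _ _).ae_le (ae_restrict_mem measurableSet_Ioi)
  calc ∫⁻ s : ℝ, ∫⁻ w : ℂ, h (Real.arcosh (Real.cosh s + Real.exp s * ‖w‖ ^ 2 / 2))
      = ∫⁻ p : ℝ × ℂ, h (Real.arcosh (Real.cosh p.1 + Real.exp p.1 * ‖p.2‖ ^ 2 / 2))
          ∂((volume : Measure ℝ).prod (volume : Measure ℂ)) :=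
        (lintegral_prod _ (hha.comp hf).aemeasurable).symm
    _ = ∫⁻ p : ℝ × ℂ, h (Real.arcosh (Real.cosh p.1 + Real.exp p.1 * ‖p.2‖ ^ 2 / 2))
          ∂(volume : Measure (ℝ × ℂ)) := by
        rw [Measure.volume_eq_prod]
    _ = ∫⁻ x, h (Real.arcosh x) ∂(Measure.map
          (fun p : ℝ × ℂ => Real.cosh p.1 + Real.exp p.1 * ‖p.2‖ ^ 2 / 2)
          (volume : Measure (ℝ × ℂ))) := (lintegral_map hha hf).symm
    _ = ∫⁻ x, h (Real.arcosh x)
          ∂(ENNReal.ofReal (4 * Real.pi) • Measure.map Real.cosh radMC) := by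
        rw [show Measure.map (fun p : ℝ × ℂ => Real.cosh p.1 + Real.exp p.1 * ‖p.2‖ ^ 2 / 2)
          (volume : Measure (ℝ × ℂ))
            = ENNReal.ofReal (4 * Real.pi) • Measure.map Real.cosh radMC from hA]
    _ = ENNReal.ofReal (4 * Real.pi) * ∫⁻ t, h (Real.arcosh (Real.cosh t)) ∂radMC := by
        rw [lintegral_smul_measure, lintegral_map hha Real.measurable_cosh, smul_eq_mul]
    _ = ENNReal.ofReal (4 * Real.pi) * ∫⁻ t, h t ∂radMC := by
        congr 1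
        refine lintegral_congr_ae ?_
        filter_upwards [hpos] with t ht
        rw [Real.arcosh_cosh (le_of_lt ht)]

/-! ## Step 6: the polar coordinates -/

theorem lintegral_pol441 {κ : Measure GC} [SFinite κ] {F : GC → ℝ≥0∞} (hF : Measurable F) :
    ∫⁻ p, F (polC p) ∂(polMC κ) = ∫⁻ r : ℝ, ∫⁻ t, sph441 κ F r t ∂radMC := by
  have hm : Measurable fun p : ℝ × GC × ℝ × GC => F (polC p) :=
    hF.comp continuous_polC441.measurable
  show ∫⁻ p, F (polC p) ∂((volume : Measure ℝ).prod (κ.prod (radMC.prod κ))) = _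
  rw [lintegral_prod _ hm.aemeasurable]
  refine lintegral_congr fun r => ?_
  have hm1 : Measurable fun q : GC × ℝ × GC => F (polC (r, q)) :=
    hm.comp measurable_prodMk_left
  rw [lintegral_prod _ hm1.aemeasurable]
  have h2 : ∀ k₁ : GC, ∫⁻ q : ℝ × GC, F (polC (r, k₁, q)) ∂(radMC.prod κ)
      = ∫⁻ t, ∫⁻ k₂, F (sclC r * k₁ * atC t * k₂) ∂κ ∂radMC := fun k₁ =>
    lintegral_prod _ (hm1.comp measurable_prodMk_left).aemeasurable
  rw [lintegral_congr h2]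
  have hm3 : Measurable fun p : (GC × ℝ) × GC => F (sclC r * p.1.1 * atC p.1.2 * p.2) :=
    hF.comp ((((continuous_const.mul (continuous_fst.comp continuous_fst)).mul
      (continuous_atC441.comp (continuous_snd.comp continuous_fst))).mul
      continuous_snd).measurable)
  have hm4 : Measurable fun p : GC × ℝ => ∫⁻ k₂, F (sclC r * p.1 * atC p.2 * k₂) ∂κ :=
    hm3.lintegral_prod_right'
  rw [lintegral_lintegral_swap
    (f := fun (k₁ : GC) (t : ℝ) => ∫⁻ k₂, F (sclC r * k₁ * atC t * k₂) ∂κ) hm4.aemeasurable]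
  rfl

/-! ## The leaf -/

/-- The integral form of the polar formula. -/
theorem lintegral_polar441 (hR : RightInvCC) (hC : CartanCC) (hA : AbelAreaCC)
    {κ : Measure GC} (hκ : IsU2Haar κ) {μ : Measure GC} (hμ : μ.IsHaarMeasure) [SFinite μ]
    {c₁ : ℝ≥0∞} (hIμ : μ = c₁ • Measure.map iwaC (iwaMC κ)) {F : GC → ℝ≥0∞}
    (hF : Measurable F) :
    ∫⁻ g, F g ∂μ = (c₁ * ENNReal.ofReal (4 * Real.pi)) * ∫⁻ p, F (polC p) ∂(polMC κ) := by
  have hprob : IsProbabilityMeasure κ := ⟨hκ.prob⟩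
  have hsphm : Measurable fun p : ℝ × ℝ => sph441 κ F p.1 p.2 := measurable_sph441 hF
  have hg0 : Measurable fun q : (ℝ × ℝ) × ℂ =>
      Real.cosh q.1.2 + Real.exp q.1.2 * ‖q.2‖ ^ 2 / 2 := by
    fun_prop
  have hg : Measurable fun q : (ℝ × ℝ) × ℂ =>
      ((q.1.1, Real.arcosh (Real.cosh q.1.2 + Real.exp q.1.2 * ‖q.2‖ ^ 2 / 2)) : ℝ × ℝ) :=
    (measurable_fst.comp measurable_fst).prodMk (measurable_arcosh441.comp hg0)
  have hΨ : Measurable fun p : ℝ × ℝ => ∫⁻ w : ℂ, sph441 κ F p.1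
      (Real.arcosh (Real.cosh p.2 + Real.exp p.2 * ‖w‖ ^ 2 / 2)) := by
    have h1 := hsphm.comp hg
    exact h1.lintegral_prod_right'
  have hsr : ∀ r : ℝ, Measurable fun t : ℝ => sph441 κ F r t := by
    intro r
    have hr : Measurable fun t : ℝ => ((r, t) : ℝ × ℝ) := measurable_prodMk_left
    have h := hsphm.comp hr
    exact h
  have h5 : ∀ r : ℝ, ∫⁻ s : ℝ, ∫⁻ w : ℂ, sph441 κ F r
      (Real.arcosh (Real.cosh s + Real.exp s * ‖w‖ ^ 2 / 2))
      = ENNReal.ofReal (4 * Real.pi) * ∫⁻ t, sph441 κ F r t ∂radMC := fun r =>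
    lintegral_abel441 hA (hsr r)
  have hm6 : Measurable fun r : ℝ => ∫⁻ t, sph441 κ F r t ∂radMC :=
    hsphm.lintegral_prod_right'
  have e1 : ∫⁻ g, F g ∂μ = ∫⁻ g, avg441 κ F g ∂μ := (lintegral_avg441 hR hκ hμ hF).symm
  have e2 : ∫⁻ g, avg441 κ F g ∂μ = c₁ * ∫⁻ p, avg441 κ F (iwaC p) ∂(iwaMC κ) := by
    conv_lhs => rw [hIμ]
    rw [lintegral_smul_measure, lintegral_map (measurable_avg441 hF)
      continuous_iwaC441.measurable, smul_eq_mul]
  have e3 := lintegral_iwa441 hC hκ hF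
  have e4 := lintegral_rs441 hΨ
  have e5 : ∫⁻ r : ℝ, ∫⁻ s : ℝ, ∫⁻ w : ℂ, sph441 κ F r
      (Real.arcosh (Real.cosh s + Real.exp s * ‖w‖ ^ 2 / 2))
      = ENNReal.ofReal (4 * Real.pi) * ∫⁻ r : ℝ, ∫⁻ t, sph441 κ F r t ∂radMC := by
    rw [lintegral_congr h5, lintegral_const_mul _ hm6]
  have e6 := lintegral_pol441 (κ := κ) hF
  rw [e1, e2, e3, e4, e5, e6, mul_assoc]

/-- **T6.23.15 (A5)**: the polar integration formula on `GL₂(ℂ)` from the Iwasawa formula. -/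
theorem polOfCC441 : PolOfCC := by
  intro hI hR hC hA κ hκ μ hμ
  obtain ⟨c₁, hc0, hctop, hIμ⟩ := hI κ hκ μ hμ
  have hprob : IsProbabilityMeasure κ := ⟨hκ.prob⟩
  have hsf : SFinite μ := by
    rw [hIμ]
    unfold iwaMC
    infer_instance
  have h4π : ENNReal.ofReal (4 * Real.pi) ≠ 0 := by
    rw [Ne, ENNReal.ofReal_eq_zero, not_le]
    positivity
  refine ⟨c₁ * ENNReal.ofReal (4 * Real.pi), mul_ne_zero hc0 h4π,
    ENNReal.mul_ne_top hctop ENNReal.ofReal_ne_top, ?_⟩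
  refine Measure.ext_of_lintegral _ fun F hF => ?_
  rw [lintegral_polar441 hR hC hA hκ hμ hIμ hF, lintegral_smul_measure,
    lintegral_map hF continuous_polC441.measurable, smul_eq_mul]

end Fermat.Agent.LT.T6.H441

end
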