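import Mathlib
import Fermat.Agent.LT.T6.H189.ArchIntCut

/-!
# Row LT, tower T6, leaf T6.23.15 `PolOfCC` (helper441): algebra and topology of the parametrisations

OFF-MAIN.  Mathlib + `LT/T6/H189/ArchIntSpec.lean`, `ArchIntCut.lean` (helper189, byte-identical).
-/

set_option autoImplicit false

open MeasureTheory
open scoped Matrix ENNReal

noncomputable section

namespace Fermat.Agent.LT.T6.H441

open Fermat.Agent.LT.T6.H189

/-! ## Second countability -/

theorem secondCountable_mat441 : SecondCountableTopology (Matrix (Fin 2) (Fin 2) ℂ) :=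
  inferInstanceAs (SecondCountableTopology (Fin 2 → Fin 2 → ℂ))

theorem secondCountable_matop441 : SecondCountableTopology (Matrix (Fin 2) (Fin 2) ℂ)ᵐᵒᵖ :=
  haveI := secondCountable_mat441
  (MulOpposite.opHomeomorph (M := Matrix (Fin 2) (Fin 2) ℂ)).symm.isEmbedding.secondCountableTopology

theorem secondCountable_GC441 : SecondCountableTopology (GL (Fin 2) ℂ) :=
  haveI := secondCountable_mat441
  haveI := secondCountable_matop441
  Units.isEmbedding_embedProduct.secondCountableTopology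

theorem sfinite_radMC441 : SFinite radMC := by
  unfold radMC; infer_instance

/-! ## The matrices -/

@[simp] theorem dgC_val441 (u₁ u₂ : ℝ) :
    (dgC u₁ u₂ : Matrix (Fin 2) (Fin 2) ℂ) = !![(Real.exp u₁ : ℂ), 0; 0, (Real.exp u₂ : ℂ)] :=
  rfl

@[simp] theorem unC_val441 (w : ℂ) :
    (unC w : Matrix (Fin 2) (Fin 2) ℂ) = !![1, w; 0, 1] :=
  rfl

theorem dgC_mul441 (u₁ u₂ v₁ v₂ : ℝ) : dgC u₁ u₂ * dgC v₁ v₂ = dgC (u₁ + v₁) (u₂ + v₂) := by
  apply Units.ext
  rw [Units.val_mul, dgC_val441, dgC_val441, dgC_val441]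
  simp only [Matrix.mul_fin_two, mul_zero, zero_mul, add_zero, zero_add, Real.exp_add,
    Complex.ofReal_mul]

theorem dgC_zero441 : dgC 0 0 = 1 := by
  apply Units.ext
  rw [dgC_val441]
  simp [Matrix.one_fin_two]

theorem dgC_inv441 (u₁ u₂ : ℝ) : (dgC u₁ u₂)⁻¹ = dgC (-u₁) (-u₂) := by
  rw [inv_eq_iff_mul_eq_one, dgC_mul441, add_neg_cancel, add_neg_cancel, dgC_zero441]

theorem unC_mul441 (w w' : ℂ) : unC w * unC w' = unC (w' + w) := by
  apply Units.ext
  rw [Units.val_mul, unC_val441, unC_val441, unC_val441]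
  simp only [Matrix.mul_fin_two, mul_zero, zero_mul, add_zero, zero_add, one_mul, mul_one]

theorem unC_zero441 : unC 0 = 1 := by
  apply Units.ext
  rw [unC_val441]
  simp [Matrix.one_fin_two]

theorem unC_inv441 (w : ℂ) : (unC w)⁻¹ = unC (-w) := by
  rw [inv_eq_iff_mul_eq_one, unC_mul441, neg_add_cancel, unC_zero441]

/-- The scalar matrices are central. -/
theorem sclC_comm441 (r : ℝ) (g : GL (Fin 2) ℂ) : g * sclC r = sclC r * g := by
  apply Units.ext
  rw [Units.val_mul, Units.val_mul]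
  have h : (sclC r : Matrix (Fin 2) (Fin 2) ℂ) = (Real.exp r : ℂ) • (1 : Matrix (Fin 2) (Fin 2) ℂ) := by
    unfold sclC
    rw [dgC_val441]
    ext i j
    fin_cases i <;> fin_cases j <;> simp
  rw [h, Matrix.mul_smul, Matrix.smul_mul, Matrix.mul_one, Matrix.one_mul]

/-! ## Continuity -/

theorem continuous_dgC441 : Continuous (fun p : ℝ × ℝ => dgC p.1 p.2) := by
  rw [Units.continuous_iff]
  constructor
  · show Continuous fun p : ℝ × ℝ => (dgC p.1 p.2 : Matrix (Fin 2) (Fin 2) ℂ)
    simp only [dgC_val441]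
    refine continuous_pi fun i => continuous_pi fun j => ?_
    fin_cases i <;> fin_cases j <;> simp <;> fun_prop
  · show Continuous fun p : ℝ × ℝ => (((dgC p.1 p.2)⁻¹ : GL (Fin 2) ℂ) : Matrix (Fin 2) (Fin 2) ℂ)
    simp only [dgC_inv441, dgC_val441]
    refine continuous_pi fun i => continuous_pi fun j => ?_
    fin_cases i <;> fin_cases j <;> simp <;> fun_prop

theorem continuous_unC441 : Continuous unC := by
  rw [Units.continuous_iff]
  constructor
  · show Continuous fun w : ℂ => (unC w : Matrix (Fin 2) (Fin 2) ℂ)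
    simp only [unC_val441]
    refine continuous_pi fun i => continuous_pi fun j => ?_
    fin_cases i <;> fin_cases j <;> simp <;> fun_prop
  · show Continuous fun w : ℂ => (((unC w)⁻¹ : GL (Fin 2) ℂ) : Matrix (Fin 2) (Fin 2) ℂ)
    simp only [unC_inv441, unC_val441]
    refine continuous_pi fun i => continuous_pi fun j => ?_
    fin_cases i <;> fin_cases j <;> simp <;> fun_prop

theorem continuous_sclC441 : Continuous sclC :=
  continuous_dgC441.comp (continuous_id.prodMk continuous_id)

theorem continuous_atC441 : Continuous atC := by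
  unfold atC
  exact continuous_dgC441.comp
    ((continuous_id.div_const 2).prodMk (continuous_id.div_const 2).neg)

theorem continuous_polC441 : Continuous polC := by
  unfold polC
  exact (((continuous_sclC441.comp continuous_fst).mul (continuous_fst.comp continuous_snd)).mul
    (continuous_atC441.comp (continuous_fst.comp (continuous_snd.comp continuous_snd)))).mul
    (continuous_snd.comp (continuous_snd.comp continuous_snd))

theorem continuous_iwaC441 : Continuous iwaC := by
  unfold iwaC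
  exact ((continuous_dgC441.comp (continuous_fst.prodMk (continuous_fst.comp continuous_snd))).mul
    (continuous_unC441.comp (continuous_fst.comp (continuous_snd.comp continuous_snd)))).mul
    (continuous_snd.comp (continuous_snd.comp continuous_snd))

/-! ## Determinant and `ρ` of the Borel elements -/

theorem det_dgC_unC441 (u₁ u₂ : ℝ) (w : ℂ) :
    ((dgC u₁ u₂ * unC w : GL (Fin 2) ℂ) : Matrix (Fin 2) (Fin 2) ℂ).det
      = ((Real.exp (u₁ + u₂) : ℝ) : ℂ) := by
  rw [Units.val_mul, dgC_val441, unC_val441]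
  simp only [Matrix.mul_fin_two, Matrix.det_fin_two_of, mul_zero, zero_mul, add_zero, zero_add,
    mul_one, sub_zero, Real.exp_add, Complex.ofReal_mul]

theorem log_det_dgC_unC441 (u₁ u₂ : ℝ) (w : ℂ) :
    Real.log ‖((dgC u₁ u₂ * unC w : GL (Fin 2) ℂ) : Matrix (Fin 2) (Fin 2) ℂ).det‖ / 2
      = (u₁ + u₂) / 2 := by
  rw [det_dgC_unC441, Complex.norm_real, Real.norm_eq_abs, abs_of_pos (Real.exp_pos _),
    Real.log_exp]

theorem rhoQ_dgC_unC441 (u₁ u₂ : ℝ) (w : ℂ) :
    rhoQ (dgC u₁ u₂ * unC w)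
      = Real.cosh (u₁ - u₂) + Real.exp (u₁ - u₂) * ‖w‖ ^ 2 / 2 := by
  unfold rhoQ
  rw [det_dgC_unC441, Complex.norm_real, Real.norm_eq_abs, abs_of_pos (Real.exp_pos _)]
  rw [Units.val_mul, dgC_val441, unC_val441]
  have htr : ((!![(Real.exp u₁ : ℂ), 0; 0, (Real.exp u₂ : ℂ)] * !![1, w; 0, 1]).conjTranspose *
      (!![(Real.exp u₁ : ℂ), 0; 0, (Real.exp u₂ : ℂ)] * !![1, w; 0, 1])).trace.re
      = Real.exp u₁ ^ 2 * (1 + ‖w‖ ^ 2) + Real.exp u₂ ^ 2 := by
    simp only [Matrix.mul_fin_two, Matrix.conjTranspose_apply, Matrix.trace_fin_two,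
      Matrix.mul_apply, Fin.sum_univ_two, Matrix.of_apply, Matrix.cons_val', Matrix.cons_val_zero,
      Matrix.cons_val_one, Matrix.cons_val_fin_one, mul_zero, zero_mul, add_zero, zero_add,
      mul_one, Complex.star_def, Complex.conj_ofReal]
    rw [Complex.conj_mul', norm_mul, Complex.norm_real, Real.norm_eq_abs,
      abs_of_pos (Real.exp_pos u₁)]
    have e : (↑(Real.exp u₁) * ↑(Real.exp u₁) +
        ((((Real.exp u₁ * ‖w‖ : ℝ) : ℂ)) ^ 2 + ↑(Real.exp u₂) * ↑(Real.exp u₂)) : ℂ)
        = ((Real.exp u₁ ^ 2 * (1 + ‖w‖ ^ 2) + Real.exp u₂ ^ 2 : ℝ) : ℂ) := by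
      push_cast; ring
    rw [e, Complex.ofReal_re]
  rw [htr, Real.cosh_eq, Real.exp_add, Real.exp_sub, neg_sub, Real.exp_sub]
  have h1 := Real.exp_pos u₁
  have h2 := Real.exp_pos u₂
  field_simp
  ring

end Fermat.Agent.LT.T6.H441

end
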